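import Fermat.Agent.H20.ES1.ESRoot2

/-!
# P-DS / P-ES1, block ES1-ES: final assembly WITHOUT `DiamondGaussStatement`

`j1EichlerShimura_of_normSeries`: the key lemma `KeyLemma1Statement`, the Gauss normal form, the
Hecke inputs and the norm series `NormSeries1Statement` imply the Eichler–Shimura relation
`Frob² - T_p Frob + p ⟨p⟩ = 0` on `J₁(M)(ℚ̄)[n]`.

The invariance of the Gauss valuation ring under the diamond automorphisms
(`DiamondGaussStatement`, i.e. irreducibility of `X₁(M)` mod `p`) is NOT needed: the Gauss normal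
form of `aut d a` exists up to a constant of `ℚ̄`, and constants have trivial divisors.
-/

set_option autoImplicit false
set_option linter.style.haveILetI false
set_option linter.unusedSectionVars false
set_option synthInstance.maxHeartbeats 400000

noncomputable section

namespace Fermat.Agent.H20.ES1

open ModularCurve AlgebraicCurve HahnSeries IntermediateField
open Fermat.Agent.H29.ES1 Fermat.Agent.H16 Fermat.Agent.H36

set_option maxHeartbeats 1600000 in
/-- The Eichler–Shimura relation at one prime, on points of `J₁(M)`. -/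
theorem eichlerShimura1_point' (M : ℕ) [NeZero M] (hM : 5 ≤ M) (p : ℕ) [NeZero p]
    (hp : p.Prime) (hpM : ¬ p ∣ M)
    (hKL : KeyLemmaGenStatement (F1 M) p) (hG : GaussNormalFormGenStatement (F1 M))
    (hH : HeckeInputsGen (AlgebraicClosure ℚ) (F1 M) p) (hNS : NormSeries1Statement)
    (n : ℕ) (hn : 0 < n) (hpn : ¬ p ∣ n)
    (A : ValuationSubring (AlgebraicClosure ℚ)) (hA : A.LiesOverPrime p)
    (σ : AlgebraicClosure ℚ ≃ₐ[ℚ] AlgebraicClosure ℚ) (hσ : A.IsFrobeniusAt σ p)
    (x : J1 M) (hx : n • x = 0) :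
    arithmeticGalois (F1 M) σ • arithmeticGalois (F1 M) σ • x
      - heckeOperatorGen (AlgebraicClosure ℚ) (F1 M) p
          (SemilinearAut.ofAlgAut (diamondAut (AlgebraicClosure ℚ) M (es1Unit M hp hpM)⁻¹) •
            arithmeticGalois (F1 M) σ • x)
      + p • (SemilinearAut.ofAlgAut
          (diamondAut (AlgebraicClosure ℚ) M (es1Unit M hp hpM)⁻¹) • x) = 0 := by
  obtain ⟨hα, hβ, hP, hfin, hFI, hNF⟩ := hH
  rw [heckeOperatorGen_eq hα hβ hFI hfin hNF]
  refine quadratic_relation_of_roots_diamond hn p (arithmeticGalois (F1 M) σ)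
    (SemilinearAut.ofAlgAut (diamondAut (AlgebraicClosure ℚ) M (es1Unit M hp hpM)⁻¹))
    (Pic0.correspondence (betaGen (AlgebraicClosure ℚ) (F1 M) p)
      (alphaGen (AlgebraicClosure ℚ) (F1 M) p) hβ hα hFI hfin hNF)
    (Divisor.correspondence (betaGen (AlgebraicClosure ℚ) (F1 M) p)
      (alphaGen (AlgebraicClosure ℚ) (F1 M) p) hβ hα)
    (heckeTm1 (AlgebraicClosure ℚ) M p) ?_ ?_ ?_ x hx
  · intro D
    exact ⟨Pic0.degZeroCorrespondence (betaGen (AlgebraicClosure ℚ) (F1 M) p)
      (alphaGen (AlgebraicClosure ℚ) (F1 M) p) hβ hα hFI D, rfl, rfl⟩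
  · intro f hf D hD P
    exact correspondence_apply_eq_ord_norm (betaGen (AlgebraicClosure ℚ) (F1 M) p)
      (alphaGen (AlgebraicClosure ℚ) (F1 M) p) hβ hα hfin hNF hf hD P
  · intro f hf hdiv
    exact exists_root_of_keyLemma1' M hM p hp hpM hKL hG hNS hfin n hn hpn A hA σ hσ f hf hdiv

/-- **ES1-ES, final assembly** (no `DiamondGaussStatement`). -/
theorem j1EichlerShimura_of_normSeries (hKL : KeyLemma1Statement)
    (hG : GaussNormalForm1Statement) (hHI : HeckeInputs1Statement)
    (hNS : NormSeries1Statement) : J1EichlerShimuraStatement := by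
  intro M _ hM n hn p hp hpMn A hA σ hσ
  have hpM : ¬ p ∣ M := fun h => hpMn (dvd_mul_of_dvd_left h n)
  have hpn : ¬ p ∣ n := fun h => hpMn (dvd_mul_of_dvd_right h M)
  haveI : NeZero p := ⟨hp.ne_zero⟩
  have hcop : Nat.Coprime p M := (Nat.Prime.coprime_iff_not_dvd hp).mpr hpM
  have hT : TTors M n p = heckeTors1 M n p * diamTors M n (ZMod.unitOfCoprime p hcop) := by
    rw [TTors, dif_pos ⟨hcop, hp.ne_zero⟩]
  have hD : diamNat M n p = diamTors M n (ZMod.unitOfCoprime p hcop) := by
    rw [diamNat, dif_pos hcop]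
  rw [hT, hD]
  refine LinearMap.ext fun x => Subtype.ext ?_
  have hx : n • (x : J1 M) = 0 := by
    have := Pic0.mem_torsion.mp x.2
    rwa [natCast_zsmul] at this
  have key := eichlerShimura1_point' M hM p hp hpM (hKL M hM p hp hpM) (hG M)
    (hHI M hM p hp hpM) hNS n hn hpn A hA σ hσ (x : J1 M) hx
  rw [LinearMap.add_apply, LinearMap.sub_apply, LinearMap.smul_apply, Module.End.mul_apply,
    Module.End.mul_apply, Module.End.mul_apply, LinearMap.zero_apply,
    Nat.cast_smul_eq_nsmul]
  rw [AddSubgroup.coe_add, AddSubgroup.coe_sub, AddSubgroup.coe_nsmul, coe_heckeTors1]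
  exact key

end Fermat.Agent.H20.ES1

end
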