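import Fermat.Agent.H36.ESE.TorsionAbstract

/-!
# P-DS / P-ES1, block ES1-ES: abstract shell of the Eichler–Shimura relation with diamond

Twin of `Fermat.Agent.H36.quadratic_relation_of_roots` with a second semilinear automorphism
`δ` (the diamond operator `⟨ℓ⟩`): if for every `f` whose divisor is divisible by `n` the
function `g²(f) · (δ f)^ℓ / Tm (δ g f)` is, up to a function with trivial divisor, an `n`-th
power, then `g² - T δ g + ℓ δ` kills the `n`-torsion.
-/

set_option autoImplicit false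
set_option linter.style.haveILetI false
set_option linter.unusedSectionVars false

noncomputable section

namespace Fermat.Agent.H20.ES1

open AlgebraicCurve Fermat.Agent.H36

variable {K F : Type*} [Field K] [Field F] [Algebra K F]

/-- Bookkeeping of orders (with diamond). -/
theorem ord_quadratic_eq_diamond (ℓ : ℕ) (g δ : SemilinearAut K F) (Tm : F → F)
    (hmul : ∀ x y : F, Tm (x * y) = Tm x * Tm y)
    (hconst : ∀ c : K, c ≠ 0 → ∃ c' : K, c' ≠ 0 ∧ Tm (algebraMap K F c) = algebraMap K F c')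
    (hne : ∀ x : F, x ≠ 0 → Tm x ≠ 0)
    {f a b : F} {c : K} (hc : c ≠ 0) (ha : a ≠ 0) (hb : b ≠ 0)
    (h : f * b = algebraMap K F c * a) (P : Place K F) :
    P.ord (g • g • f) - P.ord (Tm (δ • g • f)) + ℓ * P.ord (δ • f) =
      P.ord ((g • g • a) * (δ • a) ^ ℓ * Tm (δ • g • b)) -
        P.ord ((g • g • b) * (δ • b) ^ ℓ * Tm (δ • g • a)) := by
  have hg : ∀ (u : SemilinearAut K F) {y : F}, y ≠ 0 → u • y ≠ 0 := fun u {y} hy => by
    rw [SemilinearAut.smul_def]
    exact (map_ne_zero _).mpr hy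
  have hbase : ∀ (u : SemilinearAut K F) {d : K}, d ≠ 0 → SemilinearAut.baseAut u d ≠ 0 :=
    fun u {d} hd => (map_ne_zero _).mpr hd
  have hrel : ∀ (u : SemilinearAut K F) {f' a' b' : F} {c' : K},
      f' * b' = algebraMap K F c' * a' →
      (u • f') * (u • b') = algebraMap K F (SemilinearAut.baseAut u c') * (u • a') := by
    intro u f' a' b' c' h'
    rw [← smul_mul', h', smul_mul', SemilinearAut.smul_algebraMap]
  -- the relations
  have h1 := hrel g h
  have h2 := hrel g h1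
  have h3 := hrel δ h1
  have h4 := hrel δ h
  obtain ⟨c', hc', hTc⟩ := hconst _ (hbase δ (hbase g hc))
  have h5 : Tm (δ • g • f) * Tm (δ • g • b) = algebraMap K F c' * Tm (δ • g • a) := by
    rw [← hmul, h3, hmul, hTc]
  have e2 := ord_eq_sub_of_mul_eq P (hbase g (hbase g hc)) (hg g (hg g ha)) (hg g (hg g hb)) h2
  have e4 := ord_eq_sub_of_mul_eq P (hbase δ hc) (hg δ ha) (hg δ hb) h4
  have e5 := ord_eq_sub_of_mul_eq P hc' (hne _ (hg δ (hg g ha))) (hne _ (hg δ (hg g hb))) h5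
  have pa : P.ord ((δ • a) ^ ℓ) = ℓ * P.ord (δ • a) := by
    rw [← zpow_natCast, P.ord_zpow]
  have pb : P.ord ((δ • b) ^ ℓ) = ℓ * P.ord (δ • b) := by
    rw [← zpow_natCast, P.ord_zpow]
  rw [P.ord_mul (mul_ne_zero (hg g (hg g ha)) (pow_ne_zero _ (hg δ ha)))
      (hne _ (hg δ (hg g hb))),
    P.ord_mul (hg g (hg g ha)) (pow_ne_zero _ (hg δ ha)),
    P.ord_mul (mul_ne_zero (hg g (hg g hb)) (pow_ne_zero _ (hg δ hb)))
      (hne _ (hg δ (hg g ha))),
    P.ord_mul (hg g (hg g hb)) (pow_ne_zero _ (hg δ hb)), pa, pb, e2, e4, e5]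
  ring

/-- **Abstract shell of the Eichler–Shimura relation on torsion, with diamond.** -/
theorem quadratic_relation_of_roots_diamond {n : ℕ} (hn : 0 < n) (ℓ : ℕ)
    (g δ : SemilinearAut K F)
    (T : Pic0 K F →+ Pic0 K F) (Tdiv : Divisor K F →+ Divisor K F) (Tm : F → F)
    (hT : ∀ D : Divisor.degZero (K := K) (F := F), ∃ D' : Divisor.degZero (K := K) (F := F),
      T (Pic0.mk D) = Pic0.mk D' ∧ (D' : Divisor K F) = Tdiv (D : Divisor K F))
    (hTm : ∀ f : F, f ≠ 0 → ∀ D : Divisor K F, (∀ P : Place K F, D P = P.ord f) →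
      ∀ P : Place K F, Tdiv D P = P.ord (Tm f))
    (hroot : ∀ f : F, f ≠ 0 →
      (∀ P : Place K F,
        (n : ℤ) ∣ P.ord (g • g • f) - P.ord (Tm (δ • g • f)) + ℓ * P.ord (δ • f)) →
      ∃ w : F, w ≠ 0 ∧ ∀ P : Place K F,
        P.ord (g • g • f) - P.ord (Tm (δ • g • f)) + ℓ * P.ord (δ • f) = n * P.ord w)
    (x : Pic0 K F) (hx : n • x = 0) :
    g • g • x - T (δ • g • x) + ℓ • (δ • x) = 0 := by
  obtain ⟨D, rfl, f, hf, hD⟩ := exists_function_of_nsmul_eq_zero hx
  have hsm : ∀ (u : SemilinearAut K F) {y : F}, y ≠ 0 → u • y ≠ 0 := fun u {y} hy => by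
    rw [SemilinearAut.smul_def]
    exact (map_ne_zero _).mpr hy
  -- the terms on divisors
  obtain ⟨D', hD'1, hD'2⟩ :=
    hT (SemilinearAut.degZeroSMulHom δ (SemilinearAut.degZeroSMulHom g D))
  have e1 : ∀ (u : SemilinearAut K F) (E : Divisor.degZero (K := K) (F := F)),
      u • Pic0.mk E = Pic0.mk (SemilinearAut.degZeroSMulHom u E) :=
    fun u E => SemilinearAut.pic0_smul_mk u E
  have e3 : ℓ • Pic0.mk (SemilinearAut.degZeroSMulHom δ D) =
      Pic0.mk (ℓ • SemilinearAut.degZeroSMulHom δ D) := rfl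
  have hgD : ∀ P : Place K F, (n : ℤ) * (g • (D : Divisor K F)) P = P.ord (g • f) :=
    fun P => ord_smul_of_divisor g hD P
  have hδgD : ∀ P : Place K F, (n : ℤ) * (δ • g • (D : Divisor K F)) P = P.ord (δ • g • f) :=
    fun P => ord_smul_of_divisor δ hgD P
  have hδD : ∀ P : Place K F, (n : ℤ) * (δ • (D : Divisor K F)) P = P.ord (δ • f) :=
    fun P => ord_smul_of_divisor δ hD P
  have hggD : ∀ P : Place K F, (n : ℤ) * (g • g • (D : Divisor K F)) P = P.ord (g • g • f) :=
    fun P => ord_smul_of_divisor g hgD P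
  have hTg : ∀ P : Place K F,
      (n : ℤ) * Tdiv (δ • g • (D : Divisor K F)) P = P.ord (Tm (δ • g • f)) := by
    intro P
    have h1 : ∀ Q : Place K F, ((n : ℤ) • (δ • g • (D : Divisor K F))) Q = Q.ord (δ • g • f) := by
      intro Q
      rw [Finsupp.smul_apply, smul_eq_mul]
      exact hδgD Q
    have h2 := hTm (δ • g • f) (hsm δ (hsm g hf)) _ h1 P
    rw [map_zsmul, Finsupp.smul_apply, smul_eq_mul] at h2
    exact h2
  -- the total divisor
  set E : Divisor.degZero (K := K) (F := F) :=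
    SemilinearAut.degZeroSMulHom g (SemilinearAut.degZeroSMulHom g D) - D' +
      ℓ • SemilinearAut.degZeroSMulHom δ D with hE
  have hEval : ∀ P : Place K F, (n : ℤ) * (E : Divisor K F) P =
      P.ord (g • g • f) - P.ord (Tm (δ • g • f)) + ℓ * P.ord (δ • f) := by
    intro P
    rw [hE, AddSubgroup.coe_add, AddSubgroup.coe_sub, AddSubgroup.coe_nsmul, hD'2,
      SemilinearAut.coe_degZeroSMulHom, SemilinearAut.coe_degZeroSMulHom,
      SemilinearAut.coe_degZeroSMulHom, SemilinearAut.coe_degZeroSMulHom,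
      SemilinearAut.coe_degZeroSMulHom,
      Finsupp.add_apply, Finsupp.sub_apply,
      Finsupp.smul_apply, nsmul_eq_mul, mul_add, mul_sub, hggD P, hTg P, ← hδD P]
    ring
  obtain ⟨w, hw, hwE⟩ := hroot f hf (fun P => ⟨(E : Divisor K F) P, (hEval P).symm⟩)
  have hmk : Pic0.mk E = 0 := mk_eq_zero_of_ord hn E hw (fun P => by rw [hEval P, hwE P])
  rw [e1 g D, e1 g, e1 δ, hD'1, e1 δ D, e3, ← hmk, hE]
  rfl

end Fermat.Agent.H20.ES1

end
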