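import Fermat.Agent.H20.ES1.ESRoot

/-!
# P-DS / P-ES1, block ES1-ES: final assembly

`j1EichlerShimura_of_parts`: the key lemma `KeyLemma1Statement`, the Gauss normal form, the
Hecke inputs, the invariance of the Gauss valuation ring under the diamond automorphisms and
the reduction of the multiplicative Hecke operator imply the Eichler–Shimura relation
`Frob² - T_p Frob + p ⟨p⟩ = 0` on `J₁(M)(ℚ̄)[n]`.
-/

set_option autoImplicit false
set_option linter.style.haveILetI false
set_option linter.unusedSectionVars false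
set_option synthInstance.maxHeartbeats 400000

noncomputable section

namespace Fermat.Agent.H20.ES1

open ModularCurve AlgebraicCurve HahnSeries IntermediateField
open Fermat.Agent.H29.ES1 Fermat.Agent.H16 Fermat.Agent.H36

set_option maxHeartbeats 1600000 in
/-- The Eichler–Shimura relation at one prime, on points of `J₁(M)`. -/
theorem eichlerShimura1_point (M : ℕ) [NeZero M] (hM : 5 ≤ M) (p : ℕ) [NeZero p]
    (hp : p.Prime) (hpM : ¬ p ∣ M)
    (hKL : KeyLemmaGenStatement (F1 M) p) (hG : GaussNormalFormGenStatement (F1 M))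
    (hH : HeckeInputsGen (AlgebraicClosure ℚ) (F1 M) p)
    (hDG : DiamondGaussStatement) (hNR : NormRed1Statement)
    (n : ℕ) (hn : 0 < n) (hpn : ¬ p ∣ n)
    (A : ValuationSubring (AlgebraicClosure ℚ)) (hA : A.LiesOverPrime p)
    (σ : AlgebraicClosure ℚ ≃ₐ[ℚ] AlgebraicClosure ℚ) (hσ : A.IsFrobeniusAt σ p)
    (x : J1 M) (hx : n • x = 0) :
    arithmeticGalois (F1 M) σ • arithmeticGalois (F1 M) σ • x
      - heckeOperatorGen (AlgebraicClosure ℚ) (F1 M) p
          (SemilinearAut.ofAlgAut (diamondAut (AlgebraicClosure ℚ) M (es1Unit M hp hpM)⁻¹) •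
            arithmeticGalois (F1 M) σ • x)
      + p • (SemilinearAut.ofAlgAut
          (diamondAut (AlgebraicClosure ℚ) M (es1Unit M hp hpM)⁻¹) • x) = 0 := by
  obtain ⟨hα, hβ, hP, hfin, hFI, hNF⟩ := hH
  rw [heckeOperatorGen_eq hα hβ hFI hfin hNF]
  refine quadratic_relation_of_roots_diamond hn p (arithmeticGalois (F1 M) σ)
    (SemilinearAut.ofAlgAut (diamondAut (AlgebraicClosure ℚ) M (es1Unit M hp hpM)⁻¹))
    (Pic0.correspondence (betaGen (AlgebraicClosure ℚ) (F1 M) p)
      (alphaGen (AlgebraicClosure ℚ) (F1 M) p) hβ hα hFI hfin hNF)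
    (Divisor.correspondence (betaGen (AlgebraicClosure ℚ) (F1 M) p)
      (alphaGen (AlgebraicClosure ℚ) (F1 M) p) hβ hα)
    (heckeTm1 (AlgebraicClosure ℚ) M p) ?_ ?_ ?_ x hx
  · intro D
    exact ⟨Pic0.degZeroCorrespondence (betaGen (AlgebraicClosure ℚ) (F1 M) p)
      (alphaGen (AlgebraicClosure ℚ) (F1 M) p) hβ hα hFI D, rfl, rfl⟩
  · intro f hf D hD P
    exact correspondence_apply_eq_ord_norm (betaGen (AlgebraicClosure ℚ) (F1 M) p)
      (alphaGen (AlgebraicClosure ℚ) (F1 M) p) hβ hα hfin hNF hf hD P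
  · intro f hf hdiv
    exact exists_root_of_keyLemma1 M hM p hp hpM hKL hG hDG hNR hfin n hn hpn A hA σ hσ f hf hdiv

/-- **ES1-ES, final assembly.** -/
theorem j1EichlerShimura_of_parts (hKL : KeyLemma1Statement) (hG : GaussNormalForm1Statement)
    (hHI : HeckeInputs1Statement) (hDG : DiamondGaussStatement) (hNR : NormRed1Statement) :
    J1EichlerShimuraStatement := by
  intro M _ hM n hn p hp hpMn A hA σ hσ
  have hpM : ¬ p ∣ M := fun h => hpMn (dvd_mul_of_dvd_left h n)
  have hpn : ¬ p ∣ n := fun h => hpMn (dvd_mul_of_dvd_right h M)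
  haveI : NeZero p := ⟨hp.ne_zero⟩
  have hcop : Nat.Coprime p M := (Nat.Prime.coprime_iff_not_dvd hp).mpr hpM
  have hT : TTors M n p = heckeTors1 M n p * diamTors M n (ZMod.unitOfCoprime p hcop) := by
    rw [TTors, dif_pos ⟨hcop, hp.ne_zero⟩]
  have hD : diamNat M n p = diamTors M n (ZMod.unitOfCoprime p hcop) := by
    rw [diamNat, dif_pos hcop]
  rw [hT, hD]
  refine LinearMap.ext fun x => Subtype.ext ?_
  have hx : n • (x : J1 M) = 0 := by
    have := Pic0.mem_torsion.mp x.2
    rwa [natCast_zsmul] at this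
  have key := eichlerShimura1_point M hM p hp hpM (hKL M hM p hp hpM) (hG M)
    (hHI M hM p hp hpM) hDG hNR n hn hpn A hA σ hσ (x : J1 M) hx
  rw [LinearMap.add_apply, LinearMap.sub_apply, LinearMap.smul_apply, Module.End.mul_apply,
    Module.End.mul_apply, Module.End.mul_apply, LinearMap.zero_apply,
    Nat.cast_smul_eq_nsmul]
  rw [AddSubgroup.coe_add, AddSubgroup.coe_sub, AddSubgroup.coe_nsmul, coe_heckeTors1]
  exact key

end Fermat.Agent.H20.ES1

end
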