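import Fermat.Agent.H20.ES1.NormRedScaled
import Fermat.Agent.H20.ES1.ESAbstract
import Fermat.Agent.H61.ES1.GalHecke

/-!
# P-DS / P-ES1, block ES1-ES: the root lemma for `X₁(M)` WITHOUT `DiamondGaussStatement`

For `f ∈ ℚ̄ · F1 M` whose Eichler–Shimura divisor is divisible by `n`, the function
`σ²(f) · (δ f)^p / Tm (δ σ f)` (`δ = aut p⁻¹ = ⟨p⟩`, `σ` a Frobenius element at `p ∤ M n`)
has the divisor of an `n`-th power.

Proof.  Write `f = c a / b` in Gauss normal form, and `δ a = c_a a₁ / a₂`, `δ b = c_b b₁ / b₂`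
in Gauss normal form again (the diamond automorphisms need not preserve the Gauss valuation
ring; the constants `c_a, c_b` take care of that).  With `u_a = δ a / c_a`, `u_b = δ b / c_b`
(Gauss reductions `r_a = ā₁ / ā₂`, `r_b`) and `N_a = Tm (δ σ a) / σ c_a`, `N_b` (Gauss reductions
`t_a`, `t_b` by the scaled norm reduction), the function is, up to a constant,
`X' = σ²(a) u_a^p N_b / (σ²(b) u_b^p N_a)`, which has Gauss reduction `1`; by the Gauss normal
form `X'` is a quotient `A' / B'` of integral series of the function field with equal nonzero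
reductions, and the key lemma applies.
-/

set_option autoImplicit false
set_option linter.style.haveILetI false
set_option linter.unusedSectionVars false
set_option synthInstance.maxHeartbeats 400000

noncomputable section

namespace Fermat.Agent.H20.ES1

open ModularCurve AlgebraicCurve HahnSeries IntermediateField
open Fermat.Agent.H29.ES1 Fermat.Agent.H16 Fermat.Agent.H36

/-- The Gauss normal form of an arbitrary nonzero element, as a scaled Gauss reduction. -/
theorem exists_scaled_gaussRed (F₀ : IntermediateField ℚ (LaurentSeries ℚ))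
    (hG : GaussNormalFormGenStatement F₀) (A : ValuationSubring (AlgebraicClosure ℚ)) (p : ℕ)
    (hp : p.Prime) (hA : A.LiesOverPrime p)
    (y : laurentBaseChange (AlgebraicClosure ℚ) F₀) (hy : y ≠ 0) :
    ∃ (κ : AlgebraicClosure ℚ) (r : LaurentSeries (IsLocalRing.ResidueField A)),
      κ ≠ 0 ∧ r ≠ 0 ∧
      IsGaussRed A ((algebraMap (AlgebraicClosure ℚ) (laurentBaseChange (AlgebraicClosure ℚ) F₀) κ *
        y : laurentBaseChange (AlgebraicClosure ℚ) F₀) : LaurentSeries (AlgebraicClosure ℚ)) r := by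
  obtain ⟨c, a, b, ha, hb, hc0, hared, hbred, hfab⟩ := hG A p hp hA y hy
  refine ⟨c⁻¹, coeffMap (IsLocalRing.residue A) a / coeffMap (IsLocalRing.residue A) b,
    inv_ne_zero hc0, div_ne_zero hared hbred, a, b, ?_, hbred, ?_⟩
  · have h1 : algebraMap (AlgebraicClosure ℚ) (laurentBaseChange (AlgebraicClosure ℚ) F₀) c⁻¹ * y *
        (⟨coeffMap A.subtype b, hb⟩ : laurentBaseChange (AlgebraicClosure ℚ) F₀) =
        (⟨coeffMap A.subtype a, ha⟩ : laurentBaseChange (AlgebraicClosure ℚ) F₀) := by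
      rw [mul_assoc, hfab, ← mul_assoc, ← map_mul, inv_mul_cancel₀ hc0, map_one, one_mul]
    exact congrArg Subtype.val h1
  · rw [div_mul_cancel₀ _ hbred]

set_option maxHeartbeats 3200000 in
/-- **The root lemma for `X₁(M)`**, from the norm series only. -/
theorem exists_root_of_keyLemma1' (M : ℕ) [NeZero M] (hM : 5 ≤ M) (p : ℕ) [NeZero p]
    (hp : p.Prime) (hpM : ¬ p ∣ M)
    (hKL : KeyLemmaGenStatement (F1 M) p) (hG : GaussNormalFormGenStatement (F1 M))
    (hNS : NormSeries1Statement)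
    (hfin : FiniteAlong (AlgebraicClosure ℚ) (alphaGen (AlgebraicClosure ℚ) (F1 M) p))
    (n : ℕ) (hn : 0 < n) (hpn : ¬ p ∣ n)
    (A : ValuationSubring (AlgebraicClosure ℚ)) (hA : A.LiesOverPrime p)
    (σ : AlgebraicClosure ℚ ≃ₐ[ℚ] AlgebraicClosure ℚ) (hσ : A.IsFrobeniusAt σ p)
    (f : F1Bar M) (hf : f ≠ 0)
    (hdiv : ∀ P : Place (AlgebraicClosure ℚ) (F1Bar M),
      (n : ℤ) ∣ P.ord (arithmeticGalois (F1 M) σ • arithmeticGalois (F1 M) σ • f)
        - P.ord (heckeTm1 (AlgebraicClosure ℚ) M p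
            (SemilinearAut.ofAlgAut (diamondAut (AlgebraicClosure ℚ) M (es1Unit M hp hpM)⁻¹) •
              arithmeticGalois (F1 M) σ • f))
        + p * P.ord
            (SemilinearAut.ofAlgAut (diamondAut (AlgebraicClosure ℚ) M (es1Unit M hp hpM)⁻¹) •
              f)) :
    ∃ w : F1Bar M, w ≠ 0 ∧
      ∀ P : Place (AlgebraicClosure ℚ) (F1Bar M),
        P.ord (arithmeticGalois (F1 M) σ • arithmeticGalois (F1 M) σ • f)
        - P.ord (heckeTm1 (AlgebraicClosure ℚ) M p
            (SemilinearAut.ofAlgAut (diamondAut (AlgebraicClosure ℚ) M (es1Unit M hp hpM)⁻¹) •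
              arithmeticGalois (F1 M) σ • f))
        + p * P.ord
            (SemilinearAut.ofAlgAut (diamondAut (AlgebraicClosure ℚ) M (es1Unit M hp hpM)⁻¹) •
              f) = n * P.ord w := by
  haveI : Fact p.Prime := ⟨hp⟩
  haveI : CharP (IsLocalRing.ResidueField A) p := charP_residueField_of_liesOver A hp hA
  obtain ⟨c, a, b, ha, hb, hc0, hared, hbred, hfab⟩ := hG A p hp hA f hf
  have hcomm : ∀ y : F1Bar M,
      SemilinearAut.ofAlgAut (diamondAut (AlgebraicClosure ℚ) M (es1Unit M hp hpM)⁻¹) •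
        arithmeticGalois (F1 M) σ • y =
      arithmeticGalois (F1 M) σ •
        SemilinearAut.ofAlgAut (diamondAut (AlgebraicClosure ℚ) M (es1Unit M hp hpM)⁻¹) • y := by
    intro y
    rw [← mul_smul, ← mul_smul,
      Fermat.Agent.H61.ES1.diamondAut_comm_arithmeticGalois (L := AlgebraicClosure ℚ) M
        (es1Unit M hp hpM)⁻¹ σ]
  have hback : ∀ y : F1Bar M,
      diamondAut (AlgebraicClosure ℚ) M (es1Unit M hp hpM)
        (SemilinearAut.ofAlgAut (diamondAut (AlgebraicClosure ℚ) M (es1Unit M hp hpM)⁻¹) • y)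
        = y := by
    intro y
    rw [SemilinearAut.ofAlgAut_smul]
    have h1 : diamondAut (AlgebraicClosure ℚ) M (es1Unit M hp hpM) *
        diamondAut (AlgebraicClosure ℚ) M (es1Unit M hp hpM)⁻¹ = 1 := by
      rw [← map_mul, mul_inv_cancel, map_one]
    have h2 := congrArg (fun e : F1Bar M ≃ₐ[AlgebraicClosure ℚ] F1Bar M => e y) h1
    exact h2
  have hgalg : ∀ (κ : AlgebraicClosure ℚ) (y : F1Bar M),
      arithmeticGalois (F1 M) σ • (algebraMap (AlgebraicClosure ℚ) (F1Bar M) κ * y) =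
        algebraMap (AlgebraicClosure ℚ) (F1Bar M) (σ κ) * arithmeticGalois (F1 M) σ • y := by
    intro κ y
    rw [smul_mul', SemilinearAut.smul_algebraMap]
    rfl
  generalize hg : arithmeticGalois (F1 M) σ = g at hdiv hcomm hgalg ⊢
  generalize hδ : SemilinearAut.ofAlgAut
    (diamondAut (AlgebraicClosure ℚ) M (es1Unit M hp hpM)⁻¹) = δ at hdiv hcomm hback ⊢
  generalize haF : (⟨coeffMap A.subtype a, ha⟩ : F1Bar M) = aF at hfab
  generalize hbF : (⟨coeffMap A.subtype b, hb⟩ : F1Bar M) = bF at hfab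
  have haF0 : aF ≠ 0 := fun h =>
    coeffMap_subtype_ne_zero_of_residue' A a hared (by rw [← haF] at h; exact congrArg Subtype.val h)
  have hbF0 : bF ≠ 0 := fun h =>
    coeffMap_subtype_ne_zero_of_residue' A b hbred (by rw [← hbF] at h; exact congrArg Subtype.val h)
  have hg0 : ∀ (u : SemilinearAut (AlgebraicClosure ℚ) (F1Bar M)) {y : F1Bar M},
      y ≠ 0 → u • y ≠ 0 := fun u {y} hy => by
    rw [SemilinearAut.smul_def]
    exact (map_ne_zero _).mpr hy
  -- Gauss reductions of `a`, `b`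
  have hGa : IsGaussRed A ((aF : F1Bar M) : LaurentSeries (AlgebraicClosure ℚ))
      (coeffMap (IsLocalRing.residue A) a) := by
    rw [← haF]
    exact isGaussRed_coeffMap a
  have hGb : IsGaussRed A ((bF : F1Bar M) : LaurentSeries (AlgebraicClosure ℚ))
      (coeffMap (IsLocalRing.residue A) b) := by
    rw [← hbF]
    exact isGaussRed_coeffMap b
  -- scaled Gauss reductions of `δ a`, `δ b`
  obtain ⟨ca, ra, hca0, hra0, hδa⟩ :=
    exists_scaled_gaussRed (F1 M) hG A p hp hA (δ • aF) (hg0 δ haF0)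
  obtain ⟨cb, rb, hcb0, hrb0, hδb⟩ :=
    exists_scaled_gaussRed (F1 M) hG A p hp hA (δ • bF) (hg0 δ hbF0)
  -- the action of `g`
  have hgact : ∀ (y : F1Bar M) (r : LaurentSeries (IsLocalRing.ResidueField A)),
      IsGaussRed A ((y : F1Bar M) : LaurentSeries (AlgebraicClosure ℚ)) r →
      IsGaussRed A ((g • y : F1Bar M) : LaurentSeries (AlgebraicClosure ℚ))
        (coeffMap (frobenius (IsLocalRing.ResidueField A) p) r) := by
    intro y r hy
    have := isGaussRed_frobenius (K := ℚ) hy hσ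
    rw [← hg]
    exact this
  set Fr := coeffMap (frobenius (IsLocalRing.ResidueField A) p) with hFr
  have hFrinj : Function.Injective Fr := coeffMap_frobenius_injective p
  have hFr0 : ∀ y : LaurentSeries (IsLocalRing.ResidueField A), y ≠ 0 → Fr y ≠ 0 := fun y hy h =>
    hy (hFrinj (by rw [h, map_zero]))
  -- the norms
  have hNa : ∃ ta : LaurentSeries (IsLocalRing.ResidueField A),
      IsGaussRed A ((algebraMap (AlgebraicClosure ℚ) (F1Bar M) (σ ca) *
        heckeTm1 (AlgebraicClosure ℚ) M p (δ • g • aF) : F1Bar M) :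
        LaurentSeries (AlgebraicClosure ℚ)) ta ∧
      qExpand (IsLocalRing.ResidueField A) p ta =
        qExpand (IsLocalRing.ResidueField A) p (qExpand (IsLocalRing.ResidueField A) p (Fr ra)) *
          Fr (coeffMap (IsLocalRing.residue A) a) ^ p := by
    refine normRed1_scaled hNS M hM p hp hpM A hA (δ • g • aF) (σ ca) (Fr ra)
      (Fr (coeffMap (IsLocalRing.residue A) a)) ?_ ?_
    · rw [hcomm, ← hgalg]
      exact hgact _ _ hδa
    · rw [hback]
      exact hgact _ _ hGa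
  have hNb : ∃ tb : LaurentSeries (IsLocalRing.ResidueField A),
      IsGaussRed A ((algebraMap (AlgebraicClosure ℚ) (F1Bar M) (σ cb) *
        heckeTm1 (AlgebraicClosure ℚ) M p (δ • g • bF) : F1Bar M) :
        LaurentSeries (AlgebraicClosure ℚ)) tb ∧
      qExpand (IsLocalRing.ResidueField A) p tb =
        qExpand (IsLocalRing.ResidueField A) p (qExpand (IsLocalRing.ResidueField A) p (Fr rb)) *
          Fr (coeffMap (IsLocalRing.residue A) b) ^ p := by
    refine normRed1_scaled hNS M hM p hp hpM A hA (δ • g • bF) (σ cb) (Fr rb)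
      (Fr (coeffMap (IsLocalRing.residue A) b)) ?_ ?_
    · rw [hcomm, ← hgalg]
      exact hgact _ _ hδb
    · rw [hback]
      exact hgact _ _ hGb
  obtain ⟨ta, hta, hta'⟩ := hNa
  obtain ⟨tb, htb, htb'⟩ := hNb
  have hV := qExpand_injective (R := IsLocalRing.ResidueField A) p
  have e1 : ∀ x : LaurentSeries (IsLocalRing.ResidueField A),
      x ^ p = qExpand (IsLocalRing.ResidueField A) p (Fr x) :=
    fun x => Fermat.Agent.H42.laurent_pow_char p x
  have hqne : ∀ x : LaurentSeries (IsLocalRing.ResidueField A), x ≠ 0 →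
      qExpand (IsLocalRing.ResidueField A) p x ≠ 0 := fun x hx h =>
    hx (hV (by rw [h, map_zero]))
  have hta0 : ta ≠ 0 := by
    intro h
    rw [h, map_zero] at hta'
    exact mul_ne_zero (hqne _ (hqne _ (hFr0 _ hra0))) (pow_ne_zero _ (hFr0 _ hared)) hta'.symm
  have htb0 : tb ≠ 0 := by
    intro h
    rw [h, map_zero] at htb'
    exact mul_ne_zero (hqne _ (hqne _ (hFr0 _ hrb0))) (pow_ne_zero _ (hFr0 _ hbred)) htb'.symm
  -- the unscaled functions
  set a'' : F1Bar M := (g • g • aF) * (δ • aF) ^ p * heckeTm1 (AlgebraicClosure ℚ) M p (δ • g • bF)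
    with ha''
  set b'' : F1Bar M := (g • g • bF) * (δ • bF) ^ p * heckeTm1 (AlgebraicClosure ℚ) M p (δ • g • aF)
    with hb''
  -- the scaled functions
  set a₃ : F1Bar M := (g • g • aF) *
    (algebraMap (AlgebraicClosure ℚ) (F1Bar M) ca * δ • aF) ^ p *
    (algebraMap (AlgebraicClosure ℚ) (F1Bar M) (σ cb) *
      heckeTm1 (AlgebraicClosure ℚ) M p (δ • g • bF)) with ha₃
  set b₃ : F1Bar M := (g • g • bF) *
    (algebraMap (AlgebraicClosure ℚ) (F1Bar M) cb * δ • bF) ^ p *
    (algebraMap (AlgebraicClosure ℚ) (F1Bar M) (σ ca) *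
      heckeTm1 (AlgebraicClosure ℚ) M p (δ • g • aF)) with hb₃
  have hσ0 : ∀ {κ : AlgebraicClosure ℚ}, κ ≠ 0 → σ κ ≠ 0 := fun {κ} hκ =>
    (map_ne_zero σ).mpr hκ
  have ha₃eq : a₃ = algebraMap (AlgebraicClosure ℚ) (F1Bar M) (ca ^ p * σ cb) * a'' := by
    rw [ha₃, ha'', map_mul, map_pow]
    ring
  have hb₃eq : b₃ = algebraMap (AlgebraicClosure ℚ) (F1Bar M) (cb ^ p * σ ca) * b'' := by
    rw [hb₃, hb'', map_mul, map_pow]
    ring
  have hGa₃ : IsGaussRed A ((a₃ : F1Bar M) : LaurentSeries (AlgebraicClosure ℚ))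
      (Fr (Fr (coeffMap (IsLocalRing.residue A) a)) * ra ^ p * tb) :=
    isGaussRed_mul (isGaussRed_mul (hgact _ _ (hgact _ _ hGa)) (isGaussRed_pow hδa p)) htb
  have hGb₃ : IsGaussRed A ((b₃ : F1Bar M) : LaurentSeries (AlgebraicClosure ℚ))
      (Fr (Fr (coeffMap (IsLocalRing.residue A) b)) * rb ^ p * ta) :=
    isGaussRed_mul (isGaussRed_mul (hgact _ _ (hgact _ _ hGb)) (isGaussRed_pow hδb p)) hta
  have hρ : Fr (Fr (coeffMap (IsLocalRing.residue A) a)) * ra ^ p * tb =
      Fr (Fr (coeffMap (IsLocalRing.residue A) b)) * rb ^ p * ta := by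
    apply hV
    rw [map_mul, map_mul, map_mul, map_mul, hta', htb', e1 ra, e1 rb,
      ← e1 (Fr (coeffMap (IsLocalRing.residue A) a)),
      ← e1 (Fr (coeffMap (IsLocalRing.residue A) b))]
    ring
  have hρ0 : Fr (Fr (coeffMap (IsLocalRing.residue A) b)) * rb ^ p * ta ≠ 0 :=
    mul_ne_zero (mul_ne_zero (hFr0 _ (hFr0 _ hbred)) (pow_ne_zero _ hrb0)) hta0
  have hTm0 : ∀ {y : F1Bar M}, y ≠ 0 → heckeTm1 (AlgebraicClosure ℚ) M p y ≠ 0 :=
    fun {y} hy => corrNorm_ne_zero _ _ hfin hy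
  have ha''0 : a'' ≠ 0 :=
    mul_ne_zero (mul_ne_zero (hg0 g (hg0 g haF0)) (pow_ne_zero _ (hg0 δ haF0)))
      (hTm0 (hg0 δ (hg0 g hbF0)))
  have hb''0 : b'' ≠ 0 :=
    mul_ne_zero (mul_ne_zero (hg0 g (hg0 g hbF0)) (pow_ne_zero _ (hg0 δ hbF0)))
      (hTm0 (hg0 δ (hg0 g haF0)))
  have hκa : (ca ^ p * σ cb) ≠ 0 := mul_ne_zero (pow_ne_zero _ hca0) (hσ0 hcb0)
  have hκb : (cb ^ p * σ ca) ≠ 0 := mul_ne_zero (pow_ne_zero _ hcb0) (hσ0 hca0)
  have hAlg0 : ∀ {κ : AlgebraicClosure ℚ}, κ ≠ 0 →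
      algebraMap (AlgebraicClosure ℚ) (F1Bar M) κ ≠ 0 := fun {κ} hκ => (map_ne_zero _).mpr hκ
  have ha₃0 : a₃ ≠ 0 := by
    rw [ha₃eq]
    exact mul_ne_zero (hAlg0 hκa) ha''0
  have hb₃0 : b₃ ≠ 0 := by
    rw [hb₃eq]
    exact mul_ne_zero (hAlg0 hκb) hb''0
  -- the quotient has Gauss reduction `1`
  have hX : IsGaussRed A (((a₃ / b₃ : F1Bar M)) : LaurentSeries (AlgebraicClosure ℚ)) 1 := by
    have h := isGaussRed_div hGa₃ hGb₃ hρ0
    rw [hρ, div_self hρ0] at h
    exact h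
  obtain ⟨A', B', hA', hB', hXB, hBred, hAred⟩ :=
    exists_integral_presentation (F1 M) hG A p hp hA (a₃ / b₃) 1 one_ne_zero hX
  rw [one_mul] at hAred
  have hB'0 : (⟨coeffMap A.subtype B', hB'⟩ : F1Bar M) ≠ 0 := fun h =>
    coeffMap_subtype_ne_zero_of_residue' A B' hBred (congrArg Subtype.val h)
  -- the order bookkeeping
  have hord := ord_quadratic_eq_diamond (K := AlgebraicClosure ℚ) (F := F1Bar M) p g δ
    (heckeTm1 (AlgebraicClosure ℚ) M p)
    (fun x y => corrNorm_mul _ _ x y)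
    (fun d hd => ⟨_, pow_ne_zero _ hd, corrNorm_algebraMap _ _ d⟩)
    (fun x hx => corrNorm_ne_zero _ _ hfin hx) hc0 haF0 hbF0 hfab
  have hordκ : ∀ (P : Place (AlgebraicClosure ℚ) (F1Bar M)) {κ : AlgebraicClosure ℚ}
      {y : F1Bar M}, κ ≠ 0 → y ≠ 0 →
      P.ord (algebraMap (AlgebraicClosure ℚ) (F1Bar M) κ * y) = P.ord y := by
    intro P κ y hκ hy
    rw [P.ord_mul (hAlg0 hκ) hy, Fermat.Agent.H23.ord_algebraMap, zero_add]
  have hXord : ∀ P : Place (AlgebraicClosure ℚ) (F1Bar M),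
      P.ord (⟨coeffMap A.subtype A', hA'⟩ : F1Bar M) -
        P.ord (⟨coeffMap A.subtype B', hB'⟩ : F1Bar M) = P.ord a'' - P.ord b'' := by
    intro P
    have h1 := congrArg P.ord hXB
    rw [P.ord_mul (div_ne_zero ha₃0 hb₃0) hB'0, div_eq_mul_inv,
      P.ord_mul ha₃0 (inv_ne_zero hb₃0), P.ord_inv, ha₃eq, hb₃eq, hordκ P hκa ha''0,
      hordκ P hκb hb''0] at h1
    rw [← h1]
    ring
  -- apply the key lemma
  obtain ⟨w, hw⟩ := hKL A hA n hn hpn A' B' hA' hB' hAred (by rw [hAred]; exact hBred)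
    (fun P => by
      rw [hXord P, ← hord P]
      exact hdiv P)
  have hw0 : w ≠ 0 := by
    intro h0
    rw [h0, zero_pow hn.ne', zero_mul] at hw
    have hA'0 : (⟨coeffMap A.subtype A', hA'⟩ : F1Bar M) ≠ 0 := fun h =>
      coeffMap_subtype_ne_zero_of_residue' A A' (by rw [hAred]; exact hBred)
        (congrArg Subtype.val h)
    exact hA'0 hw.symm
  refine ⟨w, hw0, fun P => ?_⟩
  rw [hord P, ← hXord P]
  have h1 := congrArg P.ord hw
  rw [P.ord_mul (pow_ne_zero n hw0) hB'0, ← zpow_natCast, P.ord_zpow] at h1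
  rw [← h1]
  ring

end Fermat.Agent.H20.ES1

end
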