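import Fermat.Agent.H16.ES1ESInterfaces
import Fermat.Agent.H36.ESE.TorsionSeries

/-!
# P-DS / P-ES1, block ES1-ES: calculus of the Gauss reduction relation

`IsGaussRed A f r` (`Fermat.Agent.H16`): the series `f ∈ L((q))` is a quotient `a / b` of
`A`-integral series, `b̄ ≠ 0`, and `r = ā / b̄`.

* ring calculus: `isGaussRed_coeffMap`, `IsGaussRed.mul`, `.pow`, `.inv`, `.div`, `.unique`;
* Galois: `IsGaussRed.gal` (decomposition group), `IsGaussRed.frobenius` (Frobenius elements);
* `IsGaussRed.qExpand`;
* `exists_integral_presentation`: an element of the level field `F₀ ⊗ ℚ̄` with a Gauss reduction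
  `r ≠ 0` has a Gauss presentation `a / b` with `a, b` **in the level field** (from the Gauss
  normal form `GaussNormalFormGenStatement F₀`).
-/

set_option autoImplicit false
set_option linter.style.haveILetI false
set_option linter.unusedSectionVars false

noncomputable section

open ModularCurve

namespace Fermat.Agent.H20.ES1

open Fermat.Agent.H16 Fermat.Agent.H36

section Calculus

variable {L : Type*} [Field L] (A : ValuationSubring L)

theorem coeffMap_subtype_injective' :
    Function.Injective (coeffMap A.subtype : LaurentSeries A → LaurentSeries L) := by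
  intro x y h
  ext n
  have := congrArg (fun s : LaurentSeries L => s.coeff n) h
  simp only [coeffMap_coeff] at this
  exact congrArg Subtype.val (Subtype.ext this)

theorem coeffMap_subtype_ne_zero_of_residue' (a : LaurentSeries A)
    (h : coeffMap (IsLocalRing.residue A) a ≠ 0) : coeffMap A.subtype a ≠ 0 := by
  intro h0
  apply h
  have ha : a = 0 := coeffMap_subtype_injective' A (by rw [h0, map_zero])
  rw [ha, map_zero]

theorem coeffMap_subtype_C (x : A) :
    coeffMap A.subtype (HahnSeries.C x) =
      algebraMap L (LaurentSeries L) (x : L) := by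
  rw [ModularCurve.algebraMap_laurentSeries_eq_single]
  show coeffMap A.subtype (HahnSeries.single 0 x) = HahnSeries.single 0 (x : L)
  rw [coeffMap_single]
  rfl

theorem coeffMap_residue_C (x : A) :
    coeffMap (IsLocalRing.residue A) (HahnSeries.C x) =
      HahnSeries.C (IsLocalRing.residue A x) := by
  show coeffMap (IsLocalRing.residue A) (HahnSeries.single 0 x) =
    HahnSeries.single 0 (IsLocalRing.residue A x)
  rw [coeffMap_single]

variable {A}

theorem isGaussRed_coeffMap (a : LaurentSeries A) :
    IsGaussRed A (coeffMap A.subtype a) (coeffMap (IsLocalRing.residue A) a) :=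
  ⟨a, 1, by rw [map_one, mul_one], by rw [map_one]; exact one_ne_zero, by rw [map_one, mul_one]⟩

theorem isGaussRed_one : IsGaussRed A (1 : LaurentSeries L) 1 := by
  have := isGaussRed_coeffMap (A := A) (1 : LaurentSeries A)
  rwa [map_one, map_one] at this

theorem isGaussRed_mul {f g : LaurentSeries L} {r s : LaurentSeries (IsLocalRing.ResidueField A)}
    (hf : IsGaussRed A f r) (hg : IsGaussRed A g s) : IsGaussRed A (f * g) (r * s) := by
  obtain ⟨a, b, hab, hb, hra⟩ := hf
  obtain ⟨a', b', hab', hb', hra'⟩ := hg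
  refine ⟨a * a', b * b', ?_, ?_, ?_⟩
  · rw [map_mul, map_mul, ← hab, ← hab']
    ring
  · rw [map_mul]
    exact mul_ne_zero hb hb'
  · rw [map_mul, map_mul, hra, hra']
    ring

theorem isGaussRed_pow {f : LaurentSeries L} {r : LaurentSeries (IsLocalRing.ResidueField A)}
    (hf : IsGaussRed A f r) (n : ℕ) : IsGaussRed A (f ^ n) (r ^ n) := by
  induction n with
  | zero => simpa using isGaussRed_one (A := A)
  | succ n ih =>
    rw [pow_succ, pow_succ]
    exact isGaussRed_mul ih hf

theorem isGaussRed_inv {f : LaurentSeries L} {r : LaurentSeries (IsLocalRing.ResidueField A)}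
    (hf : IsGaussRed A f r) (hr : r ≠ 0) : IsGaussRed A f⁻¹ r⁻¹ := by
  obtain ⟨a, b, hab, hb, hra⟩ := hf
  have ha : coeffMap (IsLocalRing.residue A) a ≠ 0 := by
    rw [hra]
    exact mul_ne_zero hr hb
  have haL : coeffMap A.subtype a ≠ 0 := coeffMap_subtype_ne_zero_of_residue' A a ha
  have hf0 : f ≠ 0 := by
    rintro rfl
    rw [zero_mul] at hab
    exact haL hab.symm
  refine ⟨b, a, ?_, ha, ?_⟩
  · rw [← hab]
    field_simp
  · rw [hra]
    field_simp

theorem isGaussRed_div {f g : LaurentSeries L} {r s : LaurentSeries (IsLocalRing.ResidueField A)}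
    (hf : IsGaussRed A f r) (hg : IsGaussRed A g s) (hs : s ≠ 0) :
    IsGaussRed A (f / g) (r / s) := by
  rw [div_eq_mul_inv, div_eq_mul_inv]
  exact isGaussRed_mul hf (isGaussRed_inv hg hs)

theorem isGaussRed_unique {f : LaurentSeries L} {r s : LaurentSeries (IsLocalRing.ResidueField A)}
    (hf : IsGaussRed A f r) (hg : IsGaussRed A f s) : r = s := by
  obtain ⟨a, b, hab, hb, hra⟩ := hf
  obtain ⟨a', b', hab', hb', hra'⟩ := hg
  have h1 : a * b' = a' * b := by
    apply coeffMap_subtype_injective' A
    rw [map_mul, map_mul, ← hab, ← hab']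
    ring
  have h2 := congrArg (coeffMap (IsLocalRing.residue A)) h1
  rw [map_mul, map_mul, hra, hra'] at h2
  have h3 : (r - s) * (coeffMap (IsLocalRing.residue A) b *
      coeffMap (IsLocalRing.residue A) b') = 0 := by
    linear_combination h2
  rcases mul_eq_zero.mp h3 with h | h
  · exact sub_eq_zero.mp h
  · exact absurd h (mul_ne_zero hb hb')

theorem isGaussRed_ne_zero {f : LaurentSeries L} {r : LaurentSeries (IsLocalRing.ResidueField A)}
    (hf : IsGaussRed A f r) (hr : r ≠ 0) : f ≠ 0 := by
  obtain ⟨a, b, hab, hb, hra⟩ := hf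
  have ha : coeffMap (IsLocalRing.residue A) a ≠ 0 := by
    rw [hra]
    exact mul_ne_zero hr hb
  have haL : coeffMap A.subtype a ≠ 0 := coeffMap_subtype_ne_zero_of_residue' A a ha
  rintro rfl
  rw [zero_mul] at hab
  exact haL hab.symm

theorem isGaussRed_qExpand {f : LaurentSeries L} {r : LaurentSeries (IsLocalRing.ResidueField A)}
    (hf : IsGaussRed A f r) (n : ℕ) [NeZero n] :
    IsGaussRed A (qExpand L n f) (qExpand (IsLocalRing.ResidueField A) n r) := by
  obtain ⟨a, b, hab, hb, hra⟩ := hf
  refine ⟨ModularCurve.qExpand A n a, ModularCurve.qExpand A n b, ?_, ?_, ?_⟩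
  · rw [ModularCurve.coeffMap_qExpand, ModularCurve.coeffMap_qExpand, ← map_mul, hab]
  · rw [ModularCurve.coeffMap_qExpand]
    intro h0
    apply hb
    apply qExpand_injective (R := IsLocalRing.ResidueField A) n
    rw [h0, map_zero]
  · rw [ModularCurve.coeffMap_qExpand, ModularCurve.coeffMap_qExpand, ← map_mul, hra]

end Calculus

section Galois

variable {K L : Type*} [Field K] [Field L] [Algebra K L] {A : ValuationSubring L}

/-- The Gauss reduction relation is stable under the decomposition group. -/
theorem isGaussRed_gal {f : LaurentSeries L} {r : LaurentSeries (IsLocalRing.ResidueField A)}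
    (hf : IsGaussRed A f r) (τ : A.decompositionSubgroup K) :
    IsGaussRed A (coeffMap (((τ : L ≃ₐ[K] L) : L →+* L)) f)
      (coeffMap (MulSemiringAction.toRingHom (A.decompositionSubgroup K)
        (IsLocalRing.ResidueField A) τ) r) := by
  obtain ⟨a, b, hab, hb, hra⟩ := hf
  refine ⟨galSeries A τ a, galSeries A τ b, ?_, ?_, ?_⟩
  · rw [coeffMap_subtype_galSeries, coeffMap_subtype_galSeries, ← map_mul, hab]
  · rw [coeffMap_residue_galSeries]
    intro h0
    apply hb
    have hinj : Function.Injective (coeffMap (MulSemiringAction.toRingHom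
        (A.decompositionSubgroup K) (IsLocalRing.ResidueField A) τ) :
        LaurentSeries (IsLocalRing.ResidueField A) →
          LaurentSeries (IsLocalRing.ResidueField A)) :=
      RingHom.injective _
    exact hinj (by rw [h0, map_zero])
  · rw [coeffMap_residue_galSeries, coeffMap_residue_galSeries, ← map_mul, hra]

/-- For a Frobenius element `σ` at `A`, the Gauss reduction of `σ f` is the coefficientwise
Frobenius of the Gauss reduction of `f`. -/
theorem isGaussRed_frobenius {ℓ : ℕ} [Fact ℓ.Prime] [CharP (IsLocalRing.ResidueField A) ℓ]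
    {f : LaurentSeries L} {r : LaurentSeries (IsLocalRing.ResidueField A)}
    (hf : IsGaussRed A f r) {σ : L ≃ₐ[K] L} (hσ : A.IsFrobeniusAt σ ℓ) :
    IsGaussRed A (coeffMap ((σ : L →+* L)) f)
      (coeffMap (frobenius (IsLocalRing.ResidueField A) ℓ) r) := by
  obtain ⟨a, b, hab, hb, hra⟩ := hf
  set τ : A.decompositionSubgroup K := ⟨σ, hσ.mem_decompositionSubgroup⟩ with hτ
  refine ⟨galSeries A τ a, galSeries A τ b, ?_, ?_, ?_⟩
  · rw [coeffMap_subtype_galSeries, coeffMap_subtype_galSeries, ← map_mul, hab]
  · rw [hτ, coeffMap_residue_galSeries_of_isFrobeniusAt A hσ]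
    intro h0
    apply hb
    exact coeffMap_frobenius_injective ℓ (by rw [h0, map_zero])
  · rw [hτ, coeffMap_residue_galSeries_of_isFrobeniusAt A hσ,
      coeffMap_residue_galSeries_of_isFrobeniusAt A hσ, ← map_mul, hra]

end Galois

section Presentation

open Fermat.Agent.H29.ES1

/-- **Integral presentation inside the level field.**  If `X ∈ F₀ ⊗ ℚ̄` has the Gauss reduction
`r ≠ 0`, then `X = a / b` with `a, b` integral series **in the level field**, `b̄ ≠ 0` and
`ā = r b̄`. -/
theorem exists_integral_presentation (F₀ : IntermediateField ℚ (LaurentSeries ℚ))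
    (hG : GaussNormalFormGenStatement F₀) (A : ValuationSubring (AlgebraicClosure ℚ)) (p : ℕ)
    (hp : p.Prime) (hA : A.LiesOverPrime p)
    (X : laurentBaseChange (AlgebraicClosure ℚ) F₀)
    (r : LaurentSeries (IsLocalRing.ResidueField A)) (hr : r ≠ 0)
    (hX : IsGaussRed A (X : LaurentSeries (AlgebraicClosure ℚ)) r) :
    ∃ (a b : LaurentSeries A)
      (ha : coeffMap A.subtype a ∈ laurentBaseChange (AlgebraicClosure ℚ) F₀)
      (hb : coeffMap A.subtype b ∈ laurentBaseChange (AlgebraicClosure ℚ) F₀),
      X * (⟨coeffMap A.subtype b, hb⟩ : laurentBaseChange (AlgebraicClosure ℚ) F₀)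
          = (⟨coeffMap A.subtype a, ha⟩ : laurentBaseChange (AlgebraicClosure ℚ) F₀) ∧
        coeffMap (IsLocalRing.residue A) b ≠ 0 ∧
        coeffMap (IsLocalRing.residue A) a = r * coeffMap (IsLocalRing.residue A) b := by
  have hX0 : X ≠ 0 := by
    intro h
    exact isGaussRed_ne_zero hX hr (by rw [h]; rfl)
  obtain ⟨c, a₀, b₀, ha₀, hb₀, hc, hared, hbred, hfab⟩ := hG A p hp hA X hX0
  obtain ⟨N, D, hND, hD, hN⟩ := hX
  have hfab' : (X : LaurentSeries (AlgebraicClosure ℚ)) * coeffMap A.subtype b₀ =
      algebraMap (AlgebraicClosure ℚ) (LaurentSeries (AlgebraicClosure ℚ)) c *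
        coeffMap A.subtype a₀ := by
    have := congrArg (Subtype.val) hfab
    exact this
  have hNred : coeffMap (IsLocalRing.residue A) N ≠ 0 := by
    rw [hN]
    exact mul_ne_zero hr hD
  -- the key relation over `L`
  have hkey : algebraMap (AlgebraicClosure ℚ) (LaurentSeries (AlgebraicClosure ℚ)) c *
      (coeffMap A.subtype a₀ * coeffMap A.subtype D) =
        coeffMap A.subtype b₀ * coeffMap A.subtype N := by
    rw [← hND, ← mul_assoc, ← hfab']
    ring
  have hC : ∀ x : A, algebraMap (AlgebraicClosure ℚ) (LaurentSeries (AlgebraicClosure ℚ))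
      (x : AlgebraicClosure ℚ) = coeffMap A.subtype (HahnSeries.C x) :=
    fun x => (coeffMap_subtype_C A x).symm
  -- `c` is a unit of `A`
  have hcA : ∃ u : A, (u : AlgebraicClosure ℚ) = c ∧ IsLocalRing.residue A u ≠ 0 := by
    rcases A.mem_or_inv_mem c with hmem | hmem
    · refine ⟨⟨c, hmem⟩, rfl, ?_⟩
      intro h0
      have h1 : HahnSeries.C (⟨c, hmem⟩ : A) * (a₀ * D) = b₀ * N := by
        apply coeffMap_subtype_injective' A
        rw [map_mul, map_mul, map_mul, ← hC]
        exact hkey
      have h2 := congrArg (coeffMap (IsLocalRing.residue A)) h1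
      rw [map_mul, map_mul, map_mul] at h2
      have h3 : coeffMap (IsLocalRing.residue A) (HahnSeries.C (⟨c, hmem⟩ : A)) = 0 := by
        rw [coeffMap_residue_C, h0, map_zero]
      rw [h3, zero_mul] at h2
      exact mul_ne_zero hbred hNred h2.symm
    · have hci : c⁻¹ ≠ 0 := inv_ne_zero hc
      have hunit : IsLocalRing.residue A (⟨c⁻¹, hmem⟩ : A) ≠ 0 := by
        intro h0
        have hL : coeffMap A.subtype a₀ * coeffMap A.subtype D =
            algebraMap (AlgebraicClosure ℚ) (LaurentSeries (AlgebraicClosure ℚ)) c⁻¹ *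
              (coeffMap A.subtype b₀ * coeffMap A.subtype N) := by
          rw [← hkey, ← mul_assoc,
            ← map_mul (algebraMap (AlgebraicClosure ℚ) (LaurentSeries (AlgebraicClosure ℚ))),
            inv_mul_cancel₀ hc, map_one, one_mul]
        have h1 : a₀ * D = HahnSeries.C (⟨c⁻¹, hmem⟩ : A) * (b₀ * N) := by
          apply coeffMap_subtype_injective' A
          rw [map_mul, map_mul (coeffMap A.subtype) (HahnSeries.C _), map_mul, ← hC]
          exact hL
        have h2 := congrArg (coeffMap (IsLocalRing.residue A)) h1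
        rw [map_mul, map_mul, map_mul] at h2
        have h3 : coeffMap (IsLocalRing.residue A) (HahnSeries.C (⟨c⁻¹, hmem⟩ : A)) = 0 := by
          rw [coeffMap_residue_C, h0, map_zero]
        rw [h3, zero_mul] at h2
        exact mul_ne_zero hared hD h2
      have hu : IsUnit (⟨c⁻¹, hmem⟩ : A) := by
        by_contra hnu
        exact hunit ((IsLocalRing.residue_eq_zero_iff _).mpr
          ((IsLocalRing.mem_maximalIdeal _).mpr hnu))
      obtain ⟨v, hv⟩ := hu
      refine ⟨((v⁻¹ : Aˣ) : A), ?_, ?_⟩
      · have h1 : ((v : A) : AlgebraicClosure ℚ) = c⁻¹ := by rw [hv]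
        have h2 : (((v⁻¹ : Aˣ) : A) : AlgebraicClosure ℚ) * ((v : A) : AlgebraicClosure ℚ) = 1 := by
          rw [← A.coe_mul, Units.inv_mul, A.coe_one]
        rw [h1] at h2
        field_simp at h2
        exact h2
      · intro h0
        have h2 : IsLocalRing.residue A (((v⁻¹ : Aˣ) : A) * (v : A)) = 1 := by
          rw [Units.inv_mul, map_one]
        rw [map_mul, h0, zero_mul] at h2
        exact zero_ne_one h2
  obtain ⟨u, huc, hures⟩ := hcA
  have hCu : coeffMap A.subtype (HahnSeries.C u * a₀) =
      algebraMap (AlgebraicClosure ℚ) (LaurentSeries (AlgebraicClosure ℚ)) c *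
        coeffMap A.subtype a₀ := by
    rw [map_mul, ← hC, huc]
  have hmem : coeffMap A.subtype (HahnSeries.C u * a₀) ∈
      laurentBaseChange (AlgebraicClosure ℚ) F₀ := by
    rw [hCu, ← hfab']
    exact (X * (⟨coeffMap A.subtype b₀, hb₀⟩ : laurentBaseChange (AlgebraicClosure ℚ) F₀)).2
  refine ⟨HahnSeries.C u * a₀, b₀, hmem, hb₀, ?_, hbred, ?_⟩
  · apply Subtype.ext
    show (X : LaurentSeries (AlgebraicClosure ℚ)) * coeffMap A.subtype b₀ =
      coeffMap A.subtype (HahnSeries.C u * a₀)
    exact hfab'.trans hCu.symm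
  · have h1 : (HahnSeries.C u * a₀) * D = b₀ * N := by
      apply coeffMap_subtype_injective' A
      rw [map_mul, hCu, map_mul, mul_assoc]
      exact hkey
    have h2 := congrArg (coeffMap (IsLocalRing.residue A)) h1
    rw [map_mul, map_mul (coeffMap (IsLocalRing.residue A)) b₀ N, hN] at h2
    have h3 : (coeffMap (IsLocalRing.residue A) (HahnSeries.C u * a₀) -
        r * coeffMap (IsLocalRing.residue A) b₀) * coeffMap (IsLocalRing.residue A) D = 0 := by
      linear_combination h2
    rcases mul_eq_zero.mp h3 with h | h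
    · exact sub_eq_zero.mp h
    · exact absurd h hD

end Presentation

end Fermat.Agent.H20.ES1

end
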