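import Fermat.Agent.H16.ES1ESInterfaces
import Fermat.Agent.H89.QES2
import Fermat.Agent.H8.SS.FrobPoly

/-!
# P-DS / P-ES1, block ES1-ES, row ES1-ES-2: reduction of the multiplicative Hecke operator

`normRed1 : NormSeries1Statement → NormRed1Statement`.

If `y = a / b` and `aut p y = a₂ / b₂` are Gauss presentations (quotients of `A`-integral series
with denominators of nonzero reduction), then by the norm series
`(Tm y)(q^p) = y(q^{p²}) ∏_b (aut p y)(ζ^b q)` the series `(Tm y)(q^p)` has the Gauss
presentation `Num / Den` with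
`Num = a(q^{p²}) ∏_b a₂(ζ^b q)`, `Den = b(q^{p²}) ∏_b b₂(ζ^b q)`, whose reductions are
`ā(q^{p²}) ā₂^p` and `b̄(q^{p²}) b̄₂^p` (`ζ̄ = 1`).  A Gauss presentation of `g(q^p)` descends
to a Gauss presentation of `g` (`gaussRed_descent`: take the components of exponent
`≡ n₀ mod p` of numerator and denominator).
-/

set_option autoImplicit false
set_option linter.style.haveILetI false

noncomputable section

open ModularCurve Polynomial Fermat.Agent.H27 Fermat.Agent.H36 Fermat.Agent.H42

namespace Fermat.Agent.H20.ES1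

section Contract

variable (ℓ : ℕ) [hℓ : Fact ℓ.Prime] {R : Type*} [CommRing R]

theorem qContract_add' (x y : LaurentSeries R) :
    qContract ℓ (x + y) = qContract ℓ x + qContract ℓ y := by
  ext n
  simp

theorem qContract_zero' : qContract ℓ (0 : LaurentSeries R) = 0 := by
  ext n
  simp

theorem qContract_sum' {ι : Type*} (s : Finset ι) (f : ι → LaurentSeries R) :
    qContract ℓ (∑ i ∈ s, f i) = ∑ i ∈ s, qContract ℓ (f i) := by
  classical
  induction s using Finset.induction_on with
  | empty => simp [qContract_zero']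
  | insert a s ha ih => rw [Finset.sum_insert ha, Finset.sum_insert ha, qContract_add', ih]

theorem qContract_coeffMap' {S : Type*} [CommRing S] (f : R →+* S) (x : LaurentSeries R) :
    qContract ℓ (coeffMap f x) = coeffMap f (qContract ℓ x) := by
  ext n
  simp [coeffMap_coeff]

theorem qContract_single_mul_qExpand (i : Fin ℓ) (h : LaurentSeries R) :
    qContract ℓ (HahnSeries.single (((i : ℕ) : ℤ)) (1 : R) * qExpand R ℓ h) =
      if (i : ℕ) = 0 then h else 0 := by
  have hqpos : (0 : ℤ) < ℓ := by exact_mod_cast hℓ.out.pos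
  ext n
  rw [qContract_coeff]
  have h1 : (ℓ : ℤ) * n = ((ℓ : ℤ) * n - ((i : ℕ) : ℤ)) + ((i : ℕ) : ℤ) := by ring
  rw [h1, HahnSeries.coeff_single_mul_add, one_mul]
  split_ifs with hi
  · rw [hi]
    simp only [Nat.cast_zero, sub_zero]
    rw [qExpand_coeff_mul]
  · rw [HahnSeries.coeff_zero]
    apply qExpand_coeff_of_not_dvd
    intro hdvd
    apply hi
    have hi_lt : (((i : ℕ) : ℤ)) < ℓ := by exact_mod_cast i.2
    have hi_nonneg : (0 : ℤ) ≤ ((i : ℕ) : ℤ) := by positivity
    have h2 : (ℓ : ℤ) ∣ ((i : ℕ) : ℤ) := by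
      have h3 : (ℓ : ℤ) ∣ (ℓ : ℤ) * n := dvd_mul_right _ _
      have := dvd_sub h3 hdvd
      simpa using this
    have h4 := Int.eq_zero_of_dvd_of_nonneg_of_lt hi_nonneg hi_lt h2
    exact_mod_cast h4

/-- `qContract` is linear over `q ↦ q^ℓ`. -/
theorem qContract_qExpand_mul (g D : LaurentSeries R) :
    qContract ℓ (qExpand R ℓ g * D) = g * qContract ℓ D := by
  have hpos : 0 < ℓ := hℓ.out.pos
  have hdec := Fermat.Agent.H8.SS.mul_single_eq_sum ℓ D ⟨0, hpos⟩
  simp only [Nat.cast_zero] at hdec
  have hone : (HahnSeries.single (0 : ℤ) (1 : R)) = 1 := rfl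
  rw [hone, mul_one] at hdec
  have hexp : qExpand R ℓ g * D =
      ∑ i : Fin ℓ, HahnSeries.single (((i : ℕ) : ℤ)) (1 : R) *
        qExpand R ℓ (g * Fermat.Agent.H8.SS.frobMatrix ℓ D i ⟨0, hpos⟩) := by
    conv_lhs => rw [hdec]
    rw [Finset.mul_sum]
    refine Finset.sum_congr rfl fun i _ => ?_
    rw [map_mul]
    ring
  rw [hexp, qContract_sum']
  simp only [qContract_single_mul_qExpand]
  rw [Finset.sum_eq_single (⟨0, hpos⟩ : Fin ℓ)]
  · simp only [if_true]
    congr 1
    ext n
    rw [Fermat.Agent.H8.SS.frobMatrix_coeff, qContract_coeff]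
    simp
  · intro i _ hi
    rw [if_neg]
    intro h0
    exact hi (Fin.ext h0)
  · intro h
    exact absurd (Finset.mem_univ _) h

end Contract

section Descent

open Fermat.Agent.H16

/-- **Descent of Gauss presentations along `q ↦ q^ℓ`.** -/
theorem gaussRed_descent {L : Type*} [Field L] (A : ValuationSubring L) (ℓ : ℕ)
    [hℓ : Fact ℓ.Prime] (g : LaurentSeries L) (Num Den : LaurentSeries A)
    (T : LaurentSeries (IsLocalRing.ResidueField A))
    (h : qExpand L ℓ g * coeffMap A.subtype Den = coeffMap A.subtype Num)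
    (hDen : coeffMap (IsLocalRing.residue A) Den ≠ 0)
    (hNum : coeffMap (IsLocalRing.residue A) Num =
      qExpand (IsLocalRing.ResidueField A) ℓ T * coeffMap (IsLocalRing.residue A) Den) :
    IsGaussRed A g T := by
  obtain ⟨n₀, hn₀⟩ : ∃ n₀ : ℤ, (coeffMap (IsLocalRing.residue A) Den).coeff n₀ ≠ 0 := by
    by_contra hcon
    push Not at hcon
    exact hDen (HahnSeries.ext (funext fun n => by rw [hcon n, HahnSeries.coeff_zero]))
  set s : LaurentSeries A := HahnSeries.single (-n₀) (1 : A) with hs
  refine ⟨qContract ℓ (s * Num), qContract ℓ (s * Den), ?_, ?_, ?_⟩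
  · rw [← qContract_coeffMap', ← qContract_coeffMap', ← qContract_qExpand_mul, map_mul, map_mul,
      ← h]
    congr 1
    ring
  · intro hzero
    apply hn₀
    have h0 := congrArg (fun x => x.coeff 0) hzero
    simp only [coeffMap_coeff, qContract_coeff, HahnSeries.coeff_zero, mul_zero] at h0
    have h1 : (s * Den).coeff 0 = Den.coeff n₀ := by
      have h2 : (0 : ℤ) = n₀ + (-n₀) := by ring
      rw [h2, hs, HahnSeries.coeff_single_mul_add, one_mul]
    rw [h1] at h0
    rw [coeffMap_coeff]
    exact h0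
  · rw [← qContract_coeffMap', ← qContract_coeffMap', ← qContract_qExpand_mul, map_mul, map_mul,
      hNum]
    congr 1
    ring

end Descent

open Fermat.Agent.H16 Fermat.Agent.H29.ES1 in
/-- **ES1-ES-2.**  Reduction of the multiplicative Hecke operator of `X₁(M)`, from the norm
series. -/
theorem normRed1 (hNS : NormSeries1Statement) : NormRed1Statement := by
  intro M _ hM p _ hp hpM A hA y r r₂ hy hy₂
  obtain ⟨a, b, hab, hb, hra⟩ := hy
  obtain ⟨a₂, b₂, hab₂, hb₂, hra₂⟩ := hy₂
  haveI : Fact p.Prime := ⟨hp⟩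
  haveI hchar : CharP (IsLocalRing.ResidueField A) p :=
    Fermat.Agent.H89.charP_residueField_of_liesOverPrime A p hA
  -- a primitive `p`-th root of unity
  have hp0 : ((p : ℕ) : AlgebraicClosure ℚ) ≠ 0 := Nat.cast_ne_zero.mpr hp.ne_zero
  haveI : NeZero ((p : ℕ) : AlgebraicClosure ℚ) := ⟨hp0⟩
  obtain ⟨ζ₀, hζ₀⟩ := HasEnoughRootsOfUnity.exists_primitiveRoot (AlgebraicClosure ℚ) p
  obtain ⟨ζ, hζ⟩ : ∃ ζ : (AlgebraicClosure ℚ)ˣ, IsPrimitiveRoot (ζ : AlgebraicClosure ℚ) p :=
    ⟨(hζ₀.isUnit hp.ne_zero).unit, by simpa using hζ₀⟩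
  have hζpow : ζ ^ p = 1 := Units.ext (by
    rw [Units.val_pow_eq_pow_val, hζ.pow_eq_one, Units.val_one])
  obtain ⟨ζA, hζA⟩ := Fermat.Agent.H89.exists_unit_of_pow_eq_one A ζ p hp.pos hζpow
  have hζApow : ζA ^ p = 1 := by
    apply Units.map_injective (f := A.subtype.toMonoidHom) Subtype.val_injective
    rw [map_pow, hζA, hζpow, map_one]
  have hres : Units.map (IsLocalRing.residue A).toMonoidHom ζA = 1 := by
    apply Units.ext
    rw [Units.coe_map, Units.val_one]
    apply Fermat.Agent.H89.eq_one_of_pow_char_eq_one p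
    have := congrArg (fun u : Aˣ => IsLocalRing.residue A (u : A)) hζApow
    simpa using this
  have hζA' : Units.map ((A.subtype : A →+* AlgebraicClosure ℚ) : A →* AlgebraicClosure ℚ) ζA =
      ζ := hζA
  have hres' : Units.map ((IsLocalRing.residue A : A →+* IsLocalRing.ResidueField A) :
      A →* IsLocalRing.ResidueField A) ζA = 1 := hres
  -- numerator and denominator over `A`
  set Num : LaurentSeries A :=
    qExpand A p (qExpand A p a) * ∏ c ∈ Finset.range p, twist (ζA ^ c) a₂ with hNumdef
  set Den : LaurentSeries A :=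
    qExpand A p (qExpand A p b) * ∏ c ∈ Finset.range p, twist (ζA ^ c) b₂ with hDendef
  have hL : ∀ x : LaurentSeries A, ∀ c : ℕ,
      coeffMap A.subtype (twist (ζA ^ c) x) = twist (ζ ^ c) (coeffMap A.subtype x) := by
    intro x c
    rw [Fermat.Agent.H67.coeffMap_twist, map_pow, hζA']
  have hk : ∀ x : LaurentSeries A, ∀ c : ℕ,
      coeffMap (IsLocalRing.residue A) (twist (ζA ^ c) x) =
        coeffMap (IsLocalRing.residue A) x := by
    intro x c
    rw [Fermat.Agent.H67.coeffMap_twist, map_pow, hres', one_pow, Fermat.Agent.H42.twist_one']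
  have hNumL : coeffMap A.subtype Num =
      qExpand (AlgebraicClosure ℚ) p (qExpand (AlgebraicClosure ℚ) p (coeffMap A.subtype a)) *
        ∏ c ∈ Finset.range p, twist (ζ ^ c) (coeffMap A.subtype a₂) := by
    rw [hNumdef, map_mul, map_prod, ModularCurve.coeffMap_qExpand, ModularCurve.coeffMap_qExpand]
    congr 1
    exact Finset.prod_congr rfl fun c _ => hL a₂ c
  have hDenL : coeffMap A.subtype Den =
      qExpand (AlgebraicClosure ℚ) p (qExpand (AlgebraicClosure ℚ) p (coeffMap A.subtype b)) *
        ∏ c ∈ Finset.range p, twist (ζ ^ c) (coeffMap A.subtype b₂) := by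
    rw [hDendef, map_mul, map_prod, ModularCurve.coeffMap_qExpand, ModularCurve.coeffMap_qExpand]
    congr 1
    exact Finset.prod_congr rfl fun c _ => hL b₂ c
  have hNumk : coeffMap (IsLocalRing.residue A) Num =
      qExpand (IsLocalRing.ResidueField A) p (qExpand (IsLocalRing.ResidueField A) p
        (coeffMap (IsLocalRing.residue A) a)) * coeffMap (IsLocalRing.residue A) a₂ ^ p := by
    rw [hNumdef, map_mul, map_prod, ModularCurve.coeffMap_qExpand, ModularCurve.coeffMap_qExpand,
      Finset.prod_congr rfl fun c _ => hk a₂ c, Finset.prod_const, Finset.card_range]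
  have hDenk : coeffMap (IsLocalRing.residue A) Den =
      qExpand (IsLocalRing.ResidueField A) p (qExpand (IsLocalRing.ResidueField A) p
        (coeffMap (IsLocalRing.residue A) b)) * coeffMap (IsLocalRing.residue A) b₂ ^ p := by
    rw [hDendef, map_mul, map_prod, ModularCurve.coeffMap_qExpand, ModularCurve.coeffMap_qExpand,
      Finset.prod_congr rfl fun c _ => hk b₂ c, Finset.prod_const, Finset.card_range]
  -- the reduction
  set t : LaurentSeries (IsLocalRing.ResidueField A) :=
    qExpand (IsLocalRing.ResidueField A) p r *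
      coeffMap (frobenius (IsLocalRing.ResidueField A) p) r₂ with htdef
  have htexp : qExpand (IsLocalRing.ResidueField A) p t =
      qExpand (IsLocalRing.ResidueField A) p (qExpand (IsLocalRing.ResidueField A) p r) *
        r₂ ^ p := by
    rw [htdef, map_mul, Fermat.Agent.H42.laurent_pow_char p r₂]
  refine ⟨t, ?_, htexp⟩
  apply gaussRed_descent A p _ Num Den t
  · rw [hNS M hM p hp hpM ζ hζ y, hDenL, hNumL, ← hab, ← hab₂]
    simp only [map_mul, Finset.prod_mul_distrib]
    ring
  · rw [hDenk]
    refine mul_ne_zero ?_ (pow_ne_zero _ hb₂)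
    intro h0
    apply hb
    apply qExpand_injective (R := IsLocalRing.ResidueField A) p
    apply qExpand_injective (R := IsLocalRing.ResidueField A) p
    rw [h0, map_zero, map_zero]
  · rw [hNumk, hDenk, htexp, hra, hra₂]
    simp only [map_mul, mul_pow]
    ring

end Fermat.Agent.H20.ES1

end
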