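import Fermat.Agent.H20.ES1.NormRed1
import Fermat.Agent.H20.ES1.GaussRed

/-!
# P-DS / P-ES1, block ES1-ES: reduction of the multiplicative Hecke operator up to a constant

`normRed1_scaled`: if `κ y` has the Gauss reduction `r` (`κ ∈ ℚ̄`) and `aut p y` has the Gauss
reduction `r₂`, then `κ · Tm y` has a Gauss reduction `t` with `t(q^p) = r(q^{p²}) r₂(q)^p`.

This is what the Eichler–Shimura relation needs: **no** invariance of the Gauss valuation ring
under the diamond automorphisms is required, because the Gauss normal form of `aut d a`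
always exists up to a constant and constants have trivial divisors.
-/

set_option autoImplicit false
set_option linter.style.haveILetI false

noncomputable section

open ModularCurve Polynomial Fermat.Agent.H27 Fermat.Agent.H36 Fermat.Agent.H42

namespace Fermat.Agent.H20.ES1

open Fermat.Agent.H16 Fermat.Agent.H29.ES1 in
/-- **ES1-ES-2, scaled form.** -/
theorem normRed1_scaled (hNS : NormSeries1Statement) (M : ℕ) [NeZero M] (hM : 5 ≤ M) (p : ℕ)
    [NeZero p] (hp : p.Prime) (hpM : ¬ p ∣ M) (A : ValuationSubring (AlgebraicClosure ℚ))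
    (hA : A.LiesOverPrime p) (y : F1Bar M) (κ : AlgebraicClosure ℚ)
    (r r₂ : LaurentSeries (IsLocalRing.ResidueField A))
    (hy : IsGaussRed A ((algebraMap (AlgebraicClosure ℚ) (F1Bar M) κ * y : F1Bar M) :
      LaurentSeries (AlgebraicClosure ℚ)) r)
    (hy₂ : IsGaussRed A ((diamondAut (AlgebraicClosure ℚ) M (es1Unit M hp hpM) y : F1Bar M) :
      LaurentSeries (AlgebraicClosure ℚ)) r₂) :
    ∃ t : LaurentSeries (IsLocalRing.ResidueField A),
      IsGaussRed A ((algebraMap (AlgebraicClosure ℚ) (F1Bar M) κ *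
        heckeTm1 (AlgebraicClosure ℚ) M p y : F1Bar M) : LaurentSeries (AlgebraicClosure ℚ)) t ∧
      qExpand (IsLocalRing.ResidueField A) p t =
        qExpand (IsLocalRing.ResidueField A) p (qExpand (IsLocalRing.ResidueField A) p r) *
          r₂ ^ p := by
  obtain ⟨a, b, hab, hb, hra⟩ := hy
  obtain ⟨a₂, b₂, hab₂, hb₂, hra₂⟩ := hy₂
  haveI : Fact p.Prime := ⟨hp⟩
  haveI hchar : CharP (IsLocalRing.ResidueField A) p :=
    Fermat.Agent.H89.charP_residueField_of_liesOverPrime A p hA
  -- a primitive `p`-th root of unity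
  have hp0 : ((p : ℕ) : AlgebraicClosure ℚ) ≠ 0 := Nat.cast_ne_zero.mpr hp.ne_zero
  haveI : NeZero ((p : ℕ) : AlgebraicClosure ℚ) := ⟨hp0⟩
  obtain ⟨ζ₀, hζ₀⟩ := HasEnoughRootsOfUnity.exists_primitiveRoot (AlgebraicClosure ℚ) p
  obtain ⟨ζ, hζ⟩ : ∃ ζ : (AlgebraicClosure ℚ)ˣ, IsPrimitiveRoot (ζ : AlgebraicClosure ℚ) p :=
    ⟨(hζ₀.isUnit hp.ne_zero).unit, by simpa using hζ₀⟩
  have hζpow : ζ ^ p = 1 := Units.ext (by
    rw [Units.val_pow_eq_pow_val, hζ.pow_eq_one, Units.val_one])
  obtain ⟨ζA, hζA⟩ := Fermat.Agent.H89.exists_unit_of_pow_eq_one A ζ p hp.pos hζpow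
  have hζApow : ζA ^ p = 1 := by
    apply Units.map_injective (f := A.subtype.toMonoidHom) Subtype.val_injective
    rw [map_pow, hζA, hζpow, map_one]
  have hres : Units.map (IsLocalRing.residue A).toMonoidHom ζA = 1 := by
    apply Units.ext
    rw [Units.coe_map, Units.val_one]
    apply Fermat.Agent.H89.eq_one_of_pow_char_eq_one p
    have := congrArg (fun u : Aˣ => IsLocalRing.residue A (u : A)) hζApow
    simpa using this
  have hζA' : Units.map ((A.subtype : A →+* AlgebraicClosure ℚ) : A →* AlgebraicClosure ℚ) ζA =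
      ζ := hζA
  have hres' : Units.map ((IsLocalRing.residue A : A →+* IsLocalRing.ResidueField A) :
      A →* IsLocalRing.ResidueField A) ζA = 1 := hres
  -- numerator and denominator over `A`
  set Num : LaurentSeries A :=
    qExpand A p (qExpand A p a) * ∏ c ∈ Finset.range p, twist (ζA ^ c) a₂ with hNumdef
  set Den : LaurentSeries A :=
    qExpand A p (qExpand A p b) * ∏ c ∈ Finset.range p, twist (ζA ^ c) b₂ with hDendef
  have hL : ∀ x : LaurentSeries A, ∀ c : ℕ,
      coeffMap A.subtype (twist (ζA ^ c) x) = twist (ζ ^ c) (coeffMap A.subtype x) := by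
    intro x c
    rw [Fermat.Agent.H67.coeffMap_twist, map_pow, hζA']
  have hk : ∀ x : LaurentSeries A, ∀ c : ℕ,
      coeffMap (IsLocalRing.residue A) (twist (ζA ^ c) x) =
        coeffMap (IsLocalRing.residue A) x := by
    intro x c
    rw [Fermat.Agent.H67.coeffMap_twist, map_pow, hres', one_pow, Fermat.Agent.H42.twist_one']
  have hNumL : coeffMap A.subtype Num =
      qExpand (AlgebraicClosure ℚ) p (qExpand (AlgebraicClosure ℚ) p (coeffMap A.subtype a)) *
        ∏ c ∈ Finset.range p, twist (ζ ^ c) (coeffMap A.subtype a₂) := by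
    rw [hNumdef, map_mul, map_prod, ModularCurve.coeffMap_qExpand, ModularCurve.coeffMap_qExpand]
    congr 1
    exact Finset.prod_congr rfl fun c _ => hL a₂ c
  have hDenL : coeffMap A.subtype Den =
      qExpand (AlgebraicClosure ℚ) p (qExpand (AlgebraicClosure ℚ) p (coeffMap A.subtype b)) *
        ∏ c ∈ Finset.range p, twist (ζ ^ c) (coeffMap A.subtype b₂) := by
    rw [hDendef, map_mul, map_prod, ModularCurve.coeffMap_qExpand, ModularCurve.coeffMap_qExpand]
    congr 1
    exact Finset.prod_congr rfl fun c _ => hL b₂ c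
  have hNumk : coeffMap (IsLocalRing.residue A) Num =
      qExpand (IsLocalRing.ResidueField A) p (qExpand (IsLocalRing.ResidueField A) p
        (coeffMap (IsLocalRing.residue A) a)) * coeffMap (IsLocalRing.residue A) a₂ ^ p := by
    rw [hNumdef, map_mul, map_prod, ModularCurve.coeffMap_qExpand, ModularCurve.coeffMap_qExpand,
      Finset.prod_congr rfl fun c _ => hk a₂ c, Finset.prod_const, Finset.card_range]
  have hDenk : coeffMap (IsLocalRing.residue A) Den =
      qExpand (IsLocalRing.ResidueField A) p (qExpand (IsLocalRing.ResidueField A) p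
        (coeffMap (IsLocalRing.residue A) b)) * coeffMap (IsLocalRing.residue A) b₂ ^ p := by
    rw [hDendef, map_mul, map_prod, ModularCurve.coeffMap_qExpand, ModularCurve.coeffMap_qExpand,
      Finset.prod_congr rfl fun c _ => hk b₂ c, Finset.prod_const, Finset.card_range]
  -- the reduction
  set t : LaurentSeries (IsLocalRing.ResidueField A) :=
    qExpand (IsLocalRing.ResidueField A) p r *
      coeffMap (frobenius (IsLocalRing.ResidueField A) p) r₂ with htdef
  have htexp : qExpand (IsLocalRing.ResidueField A) p t =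
      qExpand (IsLocalRing.ResidueField A) p (qExpand (IsLocalRing.ResidueField A) p r) *
        r₂ ^ p := by
    rw [htdef, map_mul, Fermat.Agent.H42.laurent_pow_char p r₂]
  -- constants
  have hκ : ∀ z : F1Bar M,
      ((algebraMap (AlgebraicClosure ℚ) (F1Bar M) κ * z : F1Bar M) :
        LaurentSeries (AlgebraicClosure ℚ)) =
      algebraMap (AlgebraicClosure ℚ) (LaurentSeries (AlgebraicClosure ℚ)) κ *
        (z : LaurentSeries (AlgebraicClosure ℚ)) := fun z => rfl
  have hqκ : qExpand (AlgebraicClosure ℚ) p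
      (algebraMap (AlgebraicClosure ℚ) (LaurentSeries (AlgebraicClosure ℚ)) κ) =
      algebraMap (AlgebraicClosure ℚ) (LaurentSeries (AlgebraicClosure ℚ)) κ := by
    rw [ModularCurve.algebraMap_laurentSeries_eq_single, qExpand_single, mul_zero]
  rw [hκ] at hab
  refine ⟨t, ?_, htexp⟩
  apply gaussRed_descent A p _ Num Den t
  · rw [hκ, map_mul, hqκ, hNS M hM p hp hpM ζ hζ y, hDenL, hNumL, ← hab, ← hab₂]
    simp only [map_mul, Finset.prod_mul_distrib, hqκ]
    ring
  · rw [hDenk]
    refine mul_ne_zero ?_ (pow_ne_zero _ hb₂)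
    intro h0
    apply hb
    apply qExpand_injective (R := IsLocalRing.ResidueField A) p
    apply qExpand_injective (R := IsLocalRing.ResidueField A) p
    rw [h0, map_zero, map_zero]
  · rw [hNumk, hDenk, htexp, hra, hra₂]
    simp only [map_mul, mul_pow]
    ring

end Fermat.Agent.H20.ES1

end
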